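import Fermat.Agent.RT.Frey.Inputs
import Fermat.Agent.EC.Reduction.Frey
import Fermat.Agent.Results.S05
import Fermat.Agent.Results.S07
import Fermat.Agent.Results.S08

/-!
# Lowering the level of the Frey representation to two

From one conductor level at which the representation is modular, the level lowering inputs
produce a nonzero cusp form on `Γ₀(2)`.
-/

set_option autoImplicit false

open WeierstrassCurve WeierstrassCurve.Affine WeierstrassCurve.Affine.Point
open CuspForm

namespace Fermat.Agent.RT.Frey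

/-- Descend along the primes of the level down to a level dividing two. -/
theorem exists_level_dvd_two (h43 : LowerOddInput) (h44 : LowerAtPInput) (P : FreyPackage)
    (hirr : GaloisRepIsIrreducible (K := AlgebraicClosure ℚ) ℚ P.freyCurve P.p) :
    ∀ N : ℕ, P.IsConductorLevel N → P.ModularRepOfLevel N →
      ∃ M : ℕ, M ∣ 2 ∧ P.ModularRepOfLevel M := by
  intro N
  induction N using Nat.strong_induction_on with
  | _ N ih =>
    intro hcond hmod
    by_cases h2 : N ∣ 2
    · exact ⟨N, h2, hmod⟩
    obtain ⟨q, hq, hqN, hq2⟩ : ∃ q, q.Prime ∧ q ∣ N ∧ q ≠ 2 := by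
      by_contra hall
      push Not at hall
      refine h2 ?_
      rw [← Nat.prod_primeFactors_of_squarefree hcond.squarefree]
      refine (Finset.prod_dvd_prod_of_subset _ {2} _ fun q hq => Finset.mem_singleton.2
        (hall q (Nat.prime_of_mem_primeFactors hq) (Nat.dvd_of_mem_primeFactors hq))).trans ?_
      simp
    have key : ∀ M, M ∣ N → ¬ q ∣ M → P.ModularRepOfLevel M →
        ∃ L : ℕ, L ∣ 2 ∧ P.ModularRepOfLevel L := fun M hMN hqM hM => by
      have hlt : M < N := lt_of_le_of_ne (Nat.le_of_dvd hcond.pos hMN) fun h => hqM (h ▸ hqN)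
      exact ih M hlt (hcond.of_dvd hMN (Nat.pos_of_ne_zero fun h => hqM (h ▸ dvd_zero q))) hM
    by_cases hqp : q = P.p
    · subst hqp
      obtain ⟨M, hMN, hpM, hM⟩ := h44 P hcond hqN hirr hmod
      exact key M hMN hpM hM
    · obtain ⟨M, hMN, hqM, hM⟩ :=
        h43 P hcond hq hq2 hqp hqN hirr hmod (Results.S05.result P hq hq2 hqp)
      exact key M hMN hqM hM

/-- A nonzero form on `Γ₀(2)` from one modular conductor level. -/
theorem exists_form_two (h43 : LowerOddInput) (h44 : LowerAtPInput) (P : FreyPackage)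
    (hirr : GaloisRepIsIrreducible (K := AlgebraicClosure ℚ) ℚ P.freyCurve P.p)
    (h06 : ∃ N : ℕ, P.IsConductorLevel N ∧ P.ModularRepOfLevel N) :
    ∃ f : CuspForm (CongruenceSubgroup.Gamma0 2) 2, f ≠ 0 := by
  obtain ⟨N, hcond, hmod⟩ := h06
  obtain ⟨M, hM2, f, -, -, hf, -⟩ := exists_level_dvd_two h43 h44 P hirr N hcond hmod
  rcases (Nat.dvd_prime Nat.prime_two).1 hM2 with rfl | rfl
  · exact absurd (Results.S08.result f) hf.ne_zero
  · exact ⟨f, hf.ne_zero⟩

end Fermat.Agent.RT.Frey
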